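import Mathlib.RingTheory.MvPolynomial.EulerIdentity
import Mathlib.LinearAlgebra.Matrix.GeneralLinearGroup.Defs
import Mathlib.LinearAlgebra.Matrix.Rank
import Mathlib.Algebra.CharP.Invertible
import Mathlib.Tactic.LinearCombination

/-!
# Linear substitutions, invariants and Chevalley's lemma
-/

set_option autoImplicit false

noncomputable section

open MvPolynomial

namespace Fermat.Agent.ReflectionGroups

variable {n : ℕ} {k : Type*} [Field k]

/-- The substitution attached to a matrix. -/
def act (g : Matrix (Fin n) (Fin n) k) : MvPolynomial (Fin n) k →ₐ[k] MvPolynomial (Fin n) k :=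
  aeval fun j => ∑ i, C (g i j) * X i

theorem act_X (g : Matrix (Fin n) (Fin n) k) (j : Fin n) : act g (X j) = ∑ i, C (g i j) * X i :=
  aeval_X _ _

theorem act_mul (g h : Matrix (Fin n) (Fin n) k) (p : MvPolynomial (Fin n) k) :
    act (g * h) p = act g (act h p) := by
  rw [← AlgHom.comp_apply]
  congr 1
  refine algHom_ext fun j => ?_
  rw [AlgHom.comp_apply, act_X, act_X, map_sum]
  simp only [map_mul, act_X, Matrix.mul_apply, map_sum, algHom_C, algebraMap_eq, Finset.mul_sum,
    Finset.sum_mul]
  rw [Finset.sum_comm]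
  exact Finset.sum_congr rfl fun i _ => Finset.sum_congr rfl fun l _ => by ring

theorem act_one (p : MvPolynomial (Fin n) k) : act 1 p = p := by
  have h : act (1 : Matrix (Fin n) (Fin n) k) = AlgHom.id k _ := algHom_ext fun j => by
    rw [act_X, AlgHom.id_apply, Finset.sum_eq_single j]
    · simp
    · intro i _ hi; simp [hi]
    · simp
  rw [h, AlgHom.id_apply]

theorem isHomogeneous_act (g : Matrix (Fin n) (Fin n) k) {p : MvPolynomial (Fin n) k} {d : ℕ}
    (hp : p.IsHomogeneous d) : (act g p).IsHomogeneous d := by
  have h := hp.aeval (S := k) (fun j => ∑ i, C (g i j) * X i) (n := 1) fun j =>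
    IsHomogeneous.sum _ _ _ fun i _ => isHomogeneous_C_mul_X _ i
  rwa [one_mul] at h

theorem component_mul {p q : MvPolynomial (Fin n) k} {d : ℕ} (hq : q.IsHomogeneous d) (e : ℕ) :
    homogeneousComponent e (p * q) =
      if d ≤ e then homogeneousComponent (e - d) p * q else 0 := by
  conv_lhs => rw [← sum_homogeneousComponent p, Finset.sum_mul, map_sum]
  simp only [homogeneousComponent_of_mem ((homogeneousComponent_isHomogeneous _ p).mul hq)]
  split_ifs with h
  · rw [Finset.sum_eq_single (e - d)]
    · rw [if_pos (by omega)]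
    · intro i _ hi; rw [if_neg (by omega)]
    · intro hne
      rw [if_pos (by omega), homogeneousComponent_eq_zero _ _
        (by simp only [Finset.mem_range] at hne; omega), zero_mul]
  · exact Finset.sum_eq_zero fun i _ => if_neg (by omega)

theorem component_act (g : Matrix (Fin n) (Fin n) k) (p : MvPolynomial (Fin n) k) (e : ℕ) :
    homogeneousComponent e (act g p) = act g (homogeneousComponent e p) := by
  conv_lhs => rw [← sum_homogeneousComponent p, map_sum, map_sum]
  simp only [homogeneousComponent_of_mem
    (isHomogeneous_act g (homogeneousComponent_isHomogeneous _ p))]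
  rw [Finset.sum_ite_eq]
  split_ifs with h
  · rfl
  · rw [homogeneousComponent_eq_zero _ _ (by simp only [Finset.mem_range] at h; omega), map_zero]

variable (G : Subgroup (GL (Fin n) k))

/-- The algebra of invariants. -/
def invariants : Subalgebra k (MvPolynomial (Fin n) k) where
  carrier := {p | ∀ g ∈ G, act (g : Matrix (Fin n) (Fin n) k) p = p}
  mul_mem' {p q} hp hq g hg := by rw [map_mul, hp g hg, hq g hg]
  add_mem' {p q} hp hq g hg := by rw [map_add, hp g hg, hq g hg]
  algebraMap_mem' r g _ := AlgHom.commutes _ r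

theorem mem_invariants {p : MvPolynomial (Fin n) k} :
    p ∈ invariants G ↔ ∀ g ∈ G, act (g : Matrix (Fin n) (Fin n) k) p = p :=
  Iff.rfl

theorem component_mem_invariants {p : MvPolynomial (Fin n) k} (hp : p ∈ invariants G) (e : ℕ) :
    homogeneousComponent e p ∈ invariants G :=
  fun g hg => by rw [← component_act, hp g hg]

variable [Finite G]

/-- Averaging over the group. -/
def average (p : MvPolynomial (Fin n) k) : MvPolynomial (Fin n) k :=
  letI := Fintype.ofFinite G
  C (Nat.card G : k)⁻¹ * ∑ g : G, act ((g : GL (Fin n) k) : Matrix (Fin n) (Fin n) k) p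

theorem average_mem (p : MvPolynomial (Fin n) k) : average G p ∈ invariants G := by
  letI := Fintype.ofFinite G
  intro h hh
  unfold average
  rw [map_mul, map_sum, show act (h : Matrix (Fin n) (Fin n) k) (C (Nat.card G : k)⁻¹) =
    C (Nat.card G : k)⁻¹ from (act _).commutes _]
  refine congrArg (C (Nat.card G : k)⁻¹ * ·) ?_
  refine Eq.trans (Finset.sum_congr rfl fun g _ => ?_) (Equiv.sum_comp (Equiv.mulLeft (⟨h, hh⟩ : G))
    fun g : G => act ((g : GL (Fin n) k) : Matrix (Fin n) (Fin n) k) p)
  rw [Equiv.coe_mulLeft, Subgroup.coe_mul, Units.val_mul, act_mul]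

theorem average_mul {f : MvPolynomial (Fin n) k} (hf : f ∈ invariants G)
    (p : MvPolynomial (Fin n) k) : average G (p * f) = average G p * f := by
  letI := Fintype.ofFinite G
  rw [average, average, mul_assoc, Finset.sum_mul]
  congr 1
  exact Finset.sum_congr rfl fun g _ => by rw [map_mul, hf _ g.2]

theorem average_add (p q : MvPolynomial (Fin n) k) :
    average G (p + q) = average G p + average G q := by
  letI := Fintype.ofFinite G
  simp only [average, map_add, Finset.sum_add_distrib, mul_add]

theorem average_sum {ι : Type*} (s : Finset ι) (p : ι → MvPolynomial (Fin n) k) :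
    average G (∑ i ∈ s, p i) = ∑ i ∈ s, average G (p i) :=
  map_sum (AddMonoidHom.mk' (average G) (average_add G)) p s

theorem average_eq_self [CharZero k] {f : MvPolynomial (Fin n) k} (hf : f ∈ invariants G) :
    average G f = f := by
  letI := Fintype.ofFinite G
  rw [average, Finset.sum_congr rfl fun g _ => hf _ g.2, Finset.sum_const, Finset.card_univ,
    ← Nat.card_eq_fintype_card, nsmul_eq_mul, ← mul_assoc, ← map_natCast (C (σ := Fin n) (R := k)),
    ← C_mul, inv_mul_cancel₀ (Nat.cast_ne_zero.2 Nat.card_pos.ne'), C_1, one_mul]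

theorem isHomogeneous_average {p : MvPolynomial (Fin n) k} {d : ℕ} (hp : p.IsHomogeneous d) :
    (average G p).IsHomogeneous d := by
  letI := Fintype.ofFinite G
  exact (IsHomogeneous.sum _ _ _ fun g _ => isHomogeneous_act _ hp).C_mul _

/-- The Hilbert ideal. -/
def hilbertIdeal : Ideal (MvPolynomial (Fin n) k) :=
  Ideal.span {f | f ∈ invariants G ∧ ∃ d, 0 < d ∧ f.IsHomogeneous d}

theorem act_mem_hilbertIdeal {g : GL (Fin n) k} (hg : g ∈ G) {p : MvPolynomial (Fin n) k}
    (hp : p ∈ hilbertIdeal G) : act (g : Matrix (Fin n) (Fin n) k) p ∈ hilbertIdeal G := by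
  induction hp using Submodule.span_induction with
  | mem x hx => rw [hx.1 g hg]; exact Ideal.subset_span hx
  | zero => rw [map_zero]; exact zero_mem _
  | add x y _ _ hx hy => rw [map_add]; exact add_mem hx hy
  | smul r x _ hx => rw [smul_eq_mul, map_mul]; exact Ideal.mul_mem_left _ _ hx

/-- A pseudo-reflection changes polynomials by multiples of a linear form. -/
theorem exists_linear_form {M : Matrix (Fin n) (Fin n) k} (hM : (M - 1).rank ≤ 1) :
    ∃ L : MvPolynomial (Fin n) k, L.IsHomogeneous 1 ∧ ∀ p, L ∣ p - act M p := by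
  obtain ⟨⟨a, _⟩, ha⟩ := finrank_le_one_iff.1 hM
  set L : MvPolynomial (Fin n) k := ∑ i, C (a i) * X i
  refine ⟨L, IsHomogeneous.sum _ _ _ fun i _ => isHomogeneous_C_mul_X _ i, fun p => ?_⟩
  have hX : ∀ j, L ∣ X j - act M (X j) := fun j => by
    obtain ⟨c, hc⟩ := ha ⟨_, LinearMap.mem_range_self (M - 1).mulVecLin (Pi.single j 1)⟩
    have hc' : ∀ i, M i j = (1 : Matrix (Fin n) (Fin n) k) i j + c * a i := fun i => by
      have := congrFun (congrArg Subtype.val hc) i
      simp [Matrix.one_apply, Pi.single_apply] at this ⊢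
      linear_combination -this
    refine ⟨-C c, ?_⟩
    rw [act_X]
    simp only [hc', map_add, map_mul, add_mul, Finset.sum_add_distrib]
    rw [Finset.sum_eq_single j (fun i _ hi => by simp [hi]) (by simp)]
    simp only [Matrix.one_apply_eq, C_1, one_mul, L, Finset.sum_mul]
    rw [sub_add_cancel_left, ← Finset.sum_neg_distrib]
    exact Finset.sum_congr rfl fun i _ => by ring
  induction p using MvPolynomial.induction_on with
  | C r => simp
  | add p q hp hq => rw [map_add, add_sub_add_comm]; exact dvd_add hp hq
  | mul_X p j hp =>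
    rw [map_mul, show p * X j - act M p * act M (X j) =
      (p - act M p) * X j + act M p * (X j - act M (X j)) by ring]
    exact dvd_add (hp.mul_right _) ((hX j).mul_left _)

/-- `c` lies in the span of `f i`, `i ∈ s`, over the invariants. -/
def InvSpan {ι : Type*} (s : Finset ι) (f : ι → MvPolynomial (Fin n) k)
    (c : MvPolynomial (Fin n) k) : Prop :=
  ∃ a : ι → MvPolynomial (Fin n) k, (∀ i, a i ∈ invariants G) ∧ c = ∑ i ∈ s, a i * f i

variable [CharZero k]

/-- **Chevalley's lemma.** -/
theorem chevalley_lemma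
    (hG : G = Subgroup.closure {g | g ∈ G ∧ ((g : Matrix (Fin n) (Fin n) k) - 1).rank ≤ 1})
    {ι : Type*} [DecidableEq ι] (s : Finset ι) (f : ι → MvPolynomial (Fin n) k)
    (hf : ∀ i ∈ s, f i ∈ invariants G) {i₀ : ι} (hi₀ : i₀ ∈ s)
    (hnot : ¬ InvSpan G (s.erase i₀) f (f i₀)) :
    ∀ (d : ℕ) (p : ι → MvPolynomial (Fin n) k), (p i₀).IsHomogeneous d →
      ∑ i ∈ s, p i * f i = 0 → p i₀ ∈ hilbertIdeal G := by
  intro d
  induction d with
  | zero =>
    intro p hp hsum
    obtain ⟨c, hc⟩ : ∃ c, p i₀ = C c :=
      ⟨_, totalDegree_eq_zero_iff_eq_C.1 (Nat.le_zero.1 hp.totalDegree_le)⟩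
    by_cases hc0 : c = 0
    · rw [hc, hc0, C_0]; exact zero_mem _
    have h := congrArg (average G) hsum
    rw [average_sum, Finset.sum_congr rfl fun i hi => average_mul G (hf i hi) (p i),
      show average G 0 = 0 from map_zero (AddMonoidHom.mk' (average G) (average_add G)),
      ← Finset.add_sum_erase _ _ hi₀, hc,
      average_eq_self G (f := C c) ((invariants G).algebraMap_mem c)] at h
    refine absurd ⟨fun i => C (-c⁻¹) * average G (p i), fun i =>
      mul_mem ((invariants G).algebraMap_mem _) (average_mem G _), ?_⟩ hnot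
    simp only [mul_assoc]
    rw [← Finset.mul_sum, eq_neg_of_add_eq_zero_right h, map_neg, neg_mul_neg, ← mul_assoc, ← C_mul,
      inv_mul_cancel₀ hc0, C_1, one_mul]
  | succ d ih =>
    intro p hp hsum
    have hgen : ∀ g ∈ Subgroup.closure
        {g | g ∈ G ∧ ((g : Matrix (Fin n) (Fin n) k) - 1).rank ≤ 1},
        g ∈ G ∧ p i₀ - act (g : Matrix (Fin n) (Fin n) k) (p i₀) ∈ hilbertIdeal G := by
      intro g hg
      induction hg using Subgroup.closure_induction with
      | mem g hg =>
        refine ⟨hg.1, ?_⟩
        obtain ⟨L, hL, hdvd⟩ := exists_linear_form hg.2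
        choose h hh using fun i => hdvd (p i)
        by_cases hL0 : L = 0
        · rw [hh, hL0, zero_mul]; exact zero_mem _
        have hsum' : ∑ i ∈ s, h i * f i = 0 := by
          refine (mul_eq_zero.1 ?_).resolve_left hL0
          rw [Finset.mul_sum]
          simp only [← mul_assoc, ← hh, sub_mul, Finset.sum_sub_distrib, hsum]
          rw [zero_sub, neg_eq_zero]
          have := congrArg (act (g : Matrix (Fin n) (Fin n) k)) hsum
          rw [map_sum, map_zero] at this
          exact (Finset.sum_congr rfl fun i hi => by rw [map_mul, hf i hi g hg.1]).trans this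
        have hLh : (h i₀ * L).IsHomogeneous (d + 1) := by
          rw [mul_comm, ← hh]
          exact hp.sub (isHomogeneous_act _ hp)
        have hh0 : (h i₀).IsHomogeneous d := by
          have e : homogeneousComponent d (h i₀) = h i₀ := by
            refine mul_right_cancel₀ hL0 ?_
            rw [← homogeneousComponent_eq_self hLh, component_mul hL, if_pos (by omega),
              Nat.add_sub_cancel]
          exact e ▸ homogeneousComponent_isHomogeneous _ _
        rw [hh]
        exact Ideal.mul_mem_left _ _ (ih h hh0 hsum')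
      | one => exact ⟨one_mem G, by rw [Units.val_one, act_one, sub_self]; exact zero_mem _⟩
      | mul a b _ _ ha hb =>
        refine ⟨mul_mem ha.1 hb.1, ?_⟩
        have := add_mem ha.2 (act_mem_hilbertIdeal G ha.1 hb.2)
        rw [Units.val_mul, act_mul]
        rwa [map_sub, sub_add_sub_cancel] at this
      | inv a _ ha =>
        refine ⟨inv_mem ha.1, ?_⟩
        have := neg_mem (act_mem_hilbertIdeal G (inv_mem ha.1) ha.2)
        rwa [map_sub, ← act_mul, ← Units.val_mul, inv_mul_cancel, Units.val_one, act_one,
          neg_sub] at this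
    rw [← hG] at hgen
    letI := Fintype.ofFinite G
    have h1 : p i₀ - average G (p i₀) ∈ hilbertIdeal G := by
      have h2 := Ideal.mul_mem_left (hilbertIdeal G) (C (Nat.card G : k)⁻¹)
        (sum_mem fun (g : G) (_ : g ∈ Finset.univ) => (hgen g g.2).2)
      rw [Finset.sum_sub_distrib, Finset.sum_const, Finset.card_univ, ← Nat.card_eq_fintype_card,
        nsmul_eq_mul, mul_sub, ← mul_assoc, ← map_natCast (C (σ := Fin n) (R := k)), ← C_mul,
        inv_mul_cancel₀ (Nat.cast_ne_zero.2 Nat.card_pos.ne'), C_1, one_mul] at h2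
      exact h2
    have h3 : average G (p i₀) ∈ hilbertIdeal G :=
      Ideal.subset_span ⟨average_mem G _, d + 1, d.succ_pos, isHomogeneous_average G hp⟩
    simpa using add_mem h1 h3

end Fermat.Agent.ReflectionGroups
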