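import Fermat.Agent.ReflectionGroups.Basic
import Mathlib.RingTheory.AlgebraicIndependent.TranscendenceBasis
import Mathlib.RingTheory.AlgebraicIndependent.AlgebraicClosure
import Mathlib.RingTheory.Algebraic.Integral
import Mathlib.RingTheory.Polynomial.Basic

/-!
# The theorem of Chevalley, Shephard and Todd
-/

set_option autoImplicit false

noncomputable section

open MvPolynomial

namespace Fermat.Agent.ReflectionGroups

variable {n : ℕ} {k : Type*} [Field k] (G : Subgroup (GL (Fin n) k))

/-- A minimal system of homogeneous generators of the Hilbert ideal. -/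
theorem exists_generators : ∃ (m : ℕ) (f : Fin m → MvPolynomial (Fin n) k) (d : Fin m → ℕ),
    (∀ i, f i ∈ invariants G ∧ 0 < d i ∧ (f i).IsHomogeneous (d i)) ∧
      (∀ i, f i ∉ Ideal.span (f '' {i}ᶜ)) ∧ hilbertIdeal G = Ideal.span (Set.range f) := by
  classical
  set T := {f : MvPolynomial (Fin n) k | f ∈ invariants G ∧ ∃ d, 0 < d ∧ f.IsHomogeneous d}
  have hex : ∃ c, ∃ s : Finset (MvPolynomial (Fin n) k),
      (↑s ⊆ T) ∧ Ideal.span (↑s : Set _) = hilbertIdeal G ∧ s.card = c := by
    obtain ⟨s, hs, he⟩ := (Submodule.fg_span_iff_fg_span_finset_subset T).1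
      (IsNoetherian.noetherian (hilbertIdeal G))
    exact ⟨_, s, hs, he.symm, rfl⟩
  obtain ⟨s, hsT, hspan, hcard⟩ := Nat.find_spec hex
  set e := s.equivFin.symm
  choose d hd0 hd using fun i => (hsT (e i).2).2
  have hrange : Set.range (fun i => (e i : MvPolynomial (Fin n) k)) = ↑s := by
    ext y
    exact ⟨fun ⟨i, hi⟩ => hi ▸ (e i).2, fun hy => ⟨e.symm ⟨y, hy⟩, by simp⟩⟩
  refine ⟨s.card, fun i => e i, d, fun i => ⟨(hsT (e i).2).1, hd0 i, hd i⟩, fun i hi => ?_,
    by rw [hrange, hspan]⟩
  have hsub : (fun i => (e i : MvPolynomial (Fin n) k)) '' {i}ᶜ ⊆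
      ↑(s.erase (e i : MvPolynomial (Fin n) k)) := by
    rintro _ ⟨l, hl, rfl⟩
    exact Finset.mem_erase.2 ⟨fun h => hl (e.injective (Subtype.ext h)), (e l).2⟩
  have hmem := Ideal.span_mono hsub hi
  have hlt : (s.erase (e i : MvPolynomial (Fin n) k)).card < s.card :=
    Finset.card_erase_lt_of_mem (e i).2
  refine Nat.find_min hex (lt_of_lt_of_le hlt hcard.le)
    ⟨_, (Finset.coe_subset.2 (Finset.erase_subset _ _)).trans hsT,
    le_antisymm (hspan ▸ Ideal.span_mono (Finset.coe_subset.2 (Finset.erase_subset _ _))) ?_, rfl⟩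
  rw [← hspan, Ideal.span_le]
  intro y hy
  by_cases hye : y = (e i : MvPolynomial (Fin n) k)
  · rw [hye]; exact hmem
  · exact Ideal.subset_span (Finset.mem_coe.2 (Finset.mem_erase.2 ⟨hye, hy⟩))

/-- The chain rule. -/
theorem pderiv_aeval {m : ℕ} (f : Fin m → MvPolynomial (Fin n) k) (H : MvPolynomial (Fin m) k)
    (l : Fin n) :
    pderiv l (aeval f H) = ∑ i, aeval f (pderiv i H) * pderiv l (f i) := by
  induction H using MvPolynomial.induction_on with
  | C a => simp
  | add p q hp hq => simp only [map_add, hp, hq, add_mul, Finset.sum_add_distrib]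
  | mul_X p j hp =>
    simp only [map_mul, aeval_X, Derivation.leibniz, hp, smul_eq_mul, map_add, add_mul,
      Finset.sum_add_distrib, Finset.mul_sum]
    congr 1
    · rw [Finset.sum_eq_single j (fun i _ hi => by simp [pderiv_X_of_ne hi.symm]) (by simp)]
      simp
    · exact Finset.sum_congr rfl fun i _ => by ring

theorem isHomogeneous_aeval {m : ℕ} {f : Fin m → MvPolynomial (Fin n) k} {d : Fin m → ℕ}
    (hf : ∀ i, (f i).IsHomogeneous (d i)) (μ : Fin m →₀ ℕ) (a : k) :
    (aeval f (monomial μ a)).IsHomogeneous (Finsupp.weight d μ) := by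
  rw [aeval_monomial, algebraMap_eq, Finsupp.weight_apply, Finsupp.sum, Finsupp.prod]
  refine IsHomogeneous.C_mul ?_ a
  refine IsHomogeneous.prod _ _ _ fun i _ => ?_
  rw [smul_eq_mul, mul_comm]
  exact (hf i).pow _

theorem component_aeval {m : ℕ} {f : Fin m → MvPolynomial (Fin n) k} {d : Fin m → ℕ}
    (hf : ∀ i, (f i).IsHomogeneous (d i)) (H : MvPolynomial (Fin m) k) (D : ℕ) :
    homogeneousComponent D (aeval f H) = aeval f (weightedHomogeneousComponent d D H) := by
  induction H using MvPolynomial.induction_on' with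
  | monomial μ a =>
    rw [homogeneousComponent_of_mem (isHomogeneous_aeval hf μ a),
      weightedHomogeneousComponent_of_mem (isWeightedHomogeneous_monomial d μ a rfl)]
    split_ifs <;> simp
  | add p q hp hq => simp only [map_add, hp, hq]

theorem pderiv_eq_zero_of_lt {m : ℕ} {d : Fin m → ℕ} {H : MvPolynomial (Fin m) k} {D : ℕ}
    (hH : H.IsWeightedHomogeneous d D) {i : Fin m} (hi : D < d i) : pderiv i H = 0 := by
  rw [H.as_sum, map_sum]
  refine Finset.sum_eq_zero fun μ hμ => ?_
  have h0 : μ i = 0 := by
    by_contra h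
    have h1 := Finsupp.le_weight_of_ne_zero' d h
    rw [hH (mem_support_iff.1 hμ)] at h1
    omega
  rw [pderiv_monomial, h0, Nat.cast_zero, mul_zero, monomial_zero]

variable [Finite G] [CharZero k]

/-- The minimal generators of the Hilbert ideal generate the invariants. -/
theorem invariants_eq_adjoin {m : ℕ} {f : Fin m → MvPolynomial (Fin n) k} {d : Fin m → ℕ}
    (hf : ∀ i, f i ∈ invariants G ∧ 0 < d i ∧ (f i).IsHomogeneous (d i))
    (hI : hilbertIdeal G = Ideal.span (Set.range f)) :
    invariants G = Algebra.adjoin k (Set.range f) := by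
  have key : ∀ e (p : MvPolynomial (Fin n) k), p ∈ invariants G → p.IsHomogeneous e →
      p ∈ Algebra.adjoin k (Set.range f) := by
    intro e
    induction e using Nat.strong_induction_on with
    | _ e ih =>
      intro p hp he
      rcases Nat.eq_zero_or_pos e with h0 | h0
      · subst h0
        rw [totalDegree_eq_zero_iff_eq_C.1 (Nat.le_zero.1 he.totalDegree_le)]
        exact Subalgebra.algebraMap_mem _ _
      have hmem : p ∈ Ideal.span (Set.range f) := hI ▸ Ideal.subset_span ⟨hp, e, h0, he⟩
      obtain ⟨c, hc⟩ := Ideal.mem_span_range_iff_exists_fun.1 hmem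
      rw [← average_eq_self G hp, ← homogeneousComponent_eq_self he, ← hc, map_sum, average_sum]
      refine sum_mem fun i _ => ?_
      rw [component_mul (hf i).2.2]
      split_ifs with hle
      · rw [average_mul G (hf i).1]
        exact mul_mem (ih (e - d i) (by have := (hf i).2.1; omega) _ (average_mem G _)
          (isHomogeneous_average G (homogeneousComponent_isHomogeneous _ _)))
          (Algebra.subset_adjoin ⟨i, rfl⟩)
      · rw [show average G 0 = 0 from map_zero (AddMonoidHom.mk' (average G) (average_add G))]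
        exact zero_mem _
  refine le_antisymm (fun p hp => ?_) (Algebra.adjoin_le ?_)
  · rw [← sum_homogeneousComponent p]
    exact sum_mem fun e _ => key e _ (component_mem_invariants G hp e)
      (homogeneousComponent_isHomogeneous _ _)
  · rintro _ ⟨i, rfl⟩; exact (hf i).1

/-- **Algebraic independence** of minimal generators, for reflection groups. -/
theorem algebraicIndependent_generators
    (hG : G = Subgroup.closure {g | g ∈ G ∧ ((g : Matrix (Fin n) (Fin n) k) - 1).rank ≤ 1})
    {m : ℕ} {f : Fin m → MvPolynomial (Fin n) k} {d : Fin m → ℕ}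
    (hf : ∀ i, f i ∈ invariants G ∧ 0 < d i ∧ (f i).IsHomogeneous (d i))
    (hmin : ∀ i, f i ∉ Ideal.span (f '' {i}ᶜ))
    (hI : hilbertIdeal G = Ideal.span (Set.range f)) : AlgebraicIndependent k f := by
  classical
  have hhom := fun i => (hf i).2.2
  rw [algebraicIndependent_iff]
  intro H₀ hH₀
  by_contra hne
  have hex : ∃ D, ∃ H : MvPolynomial (Fin m) k, H ≠ 0 ∧ H.IsWeightedHomogeneous d D ∧
      aeval f H = 0 := by
    obtain ⟨μ, hμ⟩ := ne_zero_iff.1 hne
    refine ⟨Finsupp.weight d μ, weightedHomogeneousComponent d (Finsupp.weight d μ) H₀,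
      fun h => hμ ?_, weightedHomogeneousComponent_isWeightedHomogeneous _ _, ?_⟩
    · have := congrArg (coeff μ) h
      rwa [coeff_weightedHomogeneousComponent, if_pos rfl, coeff_zero] at this
    · rw [← component_aeval hhom, hH₀, map_zero]
  obtain ⟨H, hH, hHw, hH0⟩ := Nat.find_spec hex
  set D := Nat.find hex
  set h : Fin m → MvPolynomial (Fin n) k := fun i => aeval f (pderiv i H)
  have hhinv : ∀ i, h i ∈ invariants G := fun i => by
    rw [invariants_eq_adjoin G hf hI, Algebra.adjoin_range_eq_range_aeval]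
    exact ⟨_, rfl⟩
  have hhhom : ∀ i, (h i).IsHomogeneous (D - d i) := fun i => by
    rcases le_or_gt (d i) D with hle | hlt
    · have hw := hHw.pderiv (n' := D - d i) (i := i) (Nat.sub_add_cancel hle)
      have he : aeval f (weightedHomogeneousComponent d (D - d i) (pderiv i H)) = h i := by
        rw [weightedHomogeneousComponent_of_mem hw, if_pos rfl]
      rw [← he, ← component_aeval hhom]
      exact homogeneousComponent_isHomogeneous _ _
    · simp only [h, pderiv_eq_zero_of_lt hHw hlt, map_zero]
      exact isHomogeneous_zero _ _ _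
  have hsome : ∃ i, h i ≠ 0 := by
    have hD : D ≠ 0 := fun hD0 => by
      obtain ⟨μ, hμ⟩ := ne_zero_iff.1 hH
      have hC : H = C (coeff 0 H) := by
        ext ν
        rw [coeff_C]
        split_ifs with hν
        · rw [hν]
        · by_contra hc
          obtain ⟨i, hi⟩ : ∃ i, ν i ≠ 0 := by
            by_contra! hall
            exact hν (Finsupp.ext hall).symm
          have := Finsupp.le_weight_of_ne_zero' d hi
          rw [hHw hc, hD0] at this
          exact (hf i).2.1.ne' (Nat.le_zero.1 this)
      rw [hC, aeval_C, algebraMap_eq, C_eq_zero] at hH0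
      exact hH (by rw [hC, hH0, C_0])
    by_contra! hall
    refine hH ?_
    have hEuler := hHw.sum_weight_X_mul_pderiv
    rw [Finset.sum_eq_zero fun i _ => ?_] at hEuler
    · rw [nsmul_eq_mul] at hEuler
      exact (mul_eq_zero.1 hEuler.symm).resolve_left (Nat.cast_ne_zero.2 hD)
    rcases le_or_gt (d i) D with hle | hlt
    · suffices pderiv i H = 0 by rw [this, mul_zero, smul_zero]
      by_contra hd
      exact Nat.find_min hex (show D - d i < D by have := (hf i).2.1; omega)
        ⟨pderiv i H, hd, hHw.pderiv (Nat.sub_add_cancel hle), hall i⟩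
    · rw [pderiv_eq_zero_of_lt hHw hlt, mul_zero, smul_zero]
  -- a minimal subfamily spanning the `h i`
  have hexJ : ∃ c, ∃ J : Finset (Fin m), J.card = c ∧ ∀ i, InvSpan G J h (h i) :=
    ⟨_, Finset.univ, rfl, fun i => ⟨Pi.single i 1, fun l => by
      by_cases hl : l = i
      · subst hl; rw [Pi.single_eq_same]; exact one_mem _
      · rw [Pi.single_eq_of_ne hl]; exact zero_mem _, by
      simp [Pi.single_apply]⟩⟩
  obtain ⟨J, hJc, hJ⟩ := Nat.find_spec hexJ
  have hJmin : ∀ j ∈ J, ¬ InvSpan G (J.erase j) h (h j) := by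
    rintro j hj ⟨b, hb, he⟩
    refine Nat.find_min hexJ (hJc ▸ Finset.card_erase_lt_of_mem hj) ⟨J.erase j, rfl, fun i => ?_⟩
    obtain ⟨a, ha, hi⟩ := hJ i
    refine ⟨fun l => a l + a j * b l, fun l => add_mem (ha l) (mul_mem (ha j) (hb l)), ?_⟩
    rw [hi, ← Finset.add_sum_erase _ _ hj]
    conv_lhs => rw [he]
    simp only [add_mul, Finset.sum_add_distrib, Finset.mul_sum, mul_assoc]
    exact add_comm _ _
  have hJne : ∀ j ∈ J, h j ≠ 0 := fun j hj h0 => hJmin j hj
    ⟨fun _ => 0, fun _ => zero_mem _, by simp [h0]⟩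
  have hle : ∀ i, h i ≠ 0 → d i ≤ D := fun i hi => by
    by_contra hlt
    exact hi (by simp only [h, pderiv_eq_zero_of_lt hHw (not_le.1 hlt), map_zero])
  -- homogeneous coefficients
  have hA : ∀ i, ∃ a : Fin m → MvPolynomial (Fin n) k, h i = ∑ j ∈ J, a j * h j ∧
      ∀ j ∈ J, ∀ l : Fin n, (a j * pderiv l (f i)).IsHomogeneous (d j - 1) := fun i => by
    by_cases hi : h i = 0
    · exact ⟨fun _ => 0, by simp [hi], fun j _ l => by simpa using isHomogeneous_zero _ _ _⟩
    obtain ⟨c, hc, he⟩ := hJ i
    refine ⟨fun j => if D - d j ≤ D - d i then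
      homogeneousComponent (D - d i - (D - d j)) (c j) else 0, ?_, fun j hj l => ?_⟩
    · conv_lhs => rw [← homogeneousComponent_eq_self (hhhom i), he, map_sum]
      refine Finset.sum_congr rfl fun j _ => ?_
      rw [component_mul (hhhom j), ite_mul, zero_mul]
    · have h1 := hle i hi
      have h2 := hle j (hJne j hj)
      have h3 := (hf i).2.1
      dsimp only
      split_ifs with hd
      · have := (homogeneousComponent_isHomogeneous (D - d i - (D - d j)) (c j)).mul
          ((hhom i).pderiv (i := l))
        rwa [show D - d i - (D - d j) + (d i - 1) = d j - 1 by omega] at this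
      · simpa using isHomogeneous_zero _ _ _
  choose a ha hadeg using hA
  obtain ⟨j, hj⟩ : J.Nonempty := by
    rw [Finset.nonempty_iff_ne_empty]
    rintro rfl
    obtain ⟨i, hi⟩ := hsome
    exact hi (by rw [ha i, Finset.sum_empty])
  set P : Fin n → Fin m → MvPolynomial (Fin n) k := fun l j =>
    pderiv l (f j) + ∑ i ∈ Jᶜ, a i j * pderiv l (f i)
  have hP : ∀ l, P l j ∈ hilbertIdeal G := fun l => by
    refine chevalley_lemma G hG J h (fun i _ => hhinv i) hj (hJmin j hj) (d j - 1) (P l)
      (IsHomogeneous.add (hhom j).pderiv (IsHomogeneous.sum _ _ _ fun i _ => hadeg i j hj l)) ?_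
    have h0 := pderiv_aeval f H l
    rw [hH0, map_zero, ← Finset.sum_add_sum_compl J] at h0
    refine Eq.trans ?_ h0.symm
    simp only [P, add_mul, Finset.sum_add_distrib, Finset.sum_mul]
    congr 1
    · exact Finset.sum_congr rfl fun i _ => mul_comm _ _
    · rw [Finset.sum_comm]
      refine Finset.sum_congr rfl fun i _ => ?_
      rw [show aeval f (pderiv i H) = h i from rfl, ha i, Finset.sum_mul]
      exact Finset.sum_congr rfl fun l _ => by ring
  choose b hb using fun l => Ideal.mem_span_range_iff_exists_fun.1 (hI ▸ hP l :)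
  -- Euler's identity
  have hE : (d j : MvPolynomial (Fin n) k) * f j +
      ∑ i ∈ Jᶜ, (d i : MvPolynomial (Fin n) k) * a i j * f i =
        ∑ i, (∑ l, X l * b l i) * f i := by
    calc _ = ∑ l, X l * P l j := by
          simp only [P, mul_add, Finset.sum_add_distrib, Finset.mul_sum]
          rw [Finset.sum_comm, (hhom j).sum_X_mul_pderiv, nsmul_eq_mul]
          congr 1
          refine Finset.sum_congr rfl fun i _ => ?_
          rw [mul_comm _ (a i j), mul_assoc, ← nsmul_eq_mul, ← (hhom i).sum_X_mul_pderiv,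
            Finset.mul_sum]
          exact Finset.sum_congr rfl fun l _ => by ring
      _ = _ := by
          simp only [← hb, Finset.mul_sum, Finset.sum_mul]
          rw [Finset.sum_comm]
          exact Finset.sum_congr rfl fun i _ => Finset.sum_congr rfl fun l _ => by ring
  -- compare the components of degree `d j`
  have hX0 : ∀ i, homogeneousComponent 0 (∑ l, X l * b l i) = 0 := fun i => by
    rw [homogeneousComponent_zero, ← constantCoeff_eq, map_sum]
    simp
  have hcomp := congrArg (homogeneousComponent (d j)) hE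
  rw [map_add, component_mul (hhom j), if_pos le_rfl, Nat.sub_self, map_sum, map_sum,
    homogeneousComponent_zero, ← map_natCast (C (σ := Fin n) (R := k)), coeff_zero_C] at hcomp
  refine hmin j ?_
  have hrest : ∀ i ≠ j, ∀ u : MvPolynomial (Fin n) k,
      homogeneousComponent (d j) (u * f i) ∈ Ideal.span (f '' {j}ᶜ) := fun i hi u => by
    rw [component_mul (hhom i)]
    split_ifs
    · exact Ideal.mul_mem_left _ _ (Ideal.subset_span ⟨i, hi, rfl⟩)
    · exact zero_mem _
  have hsum : C (d j : k) * f j ∈ Ideal.span (f '' {j}ᶜ) := by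
    rw [eq_sub_of_add_eq hcomp]
    refine sub_mem (sum_mem fun i _ => ?_) (sum_mem fun i hi => hrest i
      (fun e => Finset.mem_compl.1 hi (e ▸ hj)) _)
    by_cases hij : i = j
    · rw [hij, component_mul (hhom j), if_pos le_rfl, Nat.sub_self, hX0, zero_mul]
      exact zero_mem _
    · exact hrest i hij _
  have := Ideal.mul_mem_left _ (C (d j : k)⁻¹) hsum
  rwa [← mul_assoc, ← C_mul, inv_mul_cancel₀ (Nat.cast_ne_zero.2 (hf j).2.1.ne'), C_1,
    one_mul] at this

omit [CharZero k] in
/-- The number of generators is the number of variables. -/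
theorem card_generators {m : ℕ} {f : Fin m → MvPolynomial (Fin n) k}
    (hind : AlgebraicIndependent k f) (hgen : invariants G = Algebra.adjoin k (Set.range f)) :
    m = n := by
  classical
  letI := Fintype.ofFinite G
  have : Algebra.IsAlgebraic (Algebra.adjoin k (Set.range f)) (MvPolynomial (Fin n) k) := by
    refine ⟨fun p => IsIntegral.isAlgebraic ?_⟩
    set q : Polynomial (MvPolynomial (Fin n) k) :=
      ∏ g : G, (Polynomial.X - Polynomial.C (act ((g : GL (Fin n) k) : Matrix (Fin n) (Fin n) k) p))
    have hlift : q ∈ Polynomial.lifts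
        (algebraMap (Algebra.adjoin k (Set.range f)) (MvPolynomial (Fin n) k)) := by
      refine (Polynomial.lifts_iff_coeff_lifts q).2 fun i => ⟨⟨q.coeff i, ?_⟩, rfl⟩
      rw [← hgen]
      intro g hg
      show ((act (g : Matrix (Fin n) (Fin n) k)) : _ →+* _) (q.coeff i) = q.coeff i
      rw [← Polynomial.coeff_map]
      congr 1
      simp only [q, Polynomial.map_prod, Polynomial.map_sub, Polynomial.map_X, Polynomial.map_C]
      refine Eq.trans (Finset.prod_congr rfl fun h _ => ?_) (Equiv.prod_comp
        (Equiv.mulLeft (⟨g, hg⟩ : G)) fun h : G => Polynomial.X -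
          Polynomial.C (act ((h : GL (Fin n) k) : Matrix (Fin n) (Fin n) k) p))
      rw [Equiv.coe_mulLeft, Subgroup.coe_mul, Units.val_mul, act_mul]
      rfl
    obtain ⟨r, hr, -, hrm⟩ := Polynomial.lifts_and_natDegree_eq_and_monic hlift
      (Polynomial.monic_prod_of_monic _ _ fun g _ => Polynomial.monic_X_sub_C _)
    refine ⟨r, hrm, ?_⟩
    rw [← Polynomial.eval_map, hr, Polynomial.eval_prod]
    exact Finset.prod_eq_zero (Finset.mem_univ 1) (by simp [act_one])
  have h1 := hind.lift_cardinalMk_le_trdeg
  have h2 := Algebra.IsAlgebraic.trdeg_le_cardinalMk k (A := MvPolynomial (Fin n) k)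
    (s := Set.range f)
  have h3 : Algebra.trdeg k (MvPolynomial (Fin n) k) = n := by simp
  rw [h3] at h1 h2
  have h4 : m ≤ n := by simpa using h1
  have h5 : Cardinal.mk (Set.range f) = m := by
    rw [← Nat.cast_card, Nat.card_range_of_injective hind.injective, Nat.card_fin]
  rw [h5] at h2
  exact le_antisymm h4 (by exact_mod_cast h2)

/-- **Chevalley–Shephard–Todd.** -/
theorem exists_basic_invariants
    (hG : G = Subgroup.closure {g | g ∈ G ∧ ((g : Matrix (Fin n) (Fin n) k) - 1).rank ≤ 1}) :
    ∃ (f : Fin n → MvPolynomial (Fin n) k) (d : Fin n → ℕ),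
      (∀ i, 0 < d i ∧ (f i).IsHomogeneous (d i)) ∧ AlgebraicIndependent k f ∧
        invariants G = Algebra.adjoin k (Set.range f) := by
  obtain ⟨m, f, d, hf, hmin, hI⟩ := exists_generators G
  have hind := algebraicIndependent_generators G hG hf hmin hI
  have hgen := invariants_eq_adjoin G hf hI
  obtain rfl := card_generators G hind hgen
  exact ⟨f, d, fun i => (hf i).2, hind, hgen⟩

end Fermat.Agent.ReflectionGroups
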