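import Fermat.Agent.ReflectionGroups.Main
import Mathlib.LinearAlgebra.FiniteDimensional.Lemmas
import Mathlib.GroupTheory.OrderOfElement

/-!
# The invariants of the negation
-/

set_option autoImplicit false

noncomputable section

open MvPolynomial

namespace Fermat.Agent.ReflectionGroups

variable {k : Type*} [Field k]

theorem act_neg_one (p : MvPolynomial (Fin 2) k) :
    act ((-1 : GL (Fin 2) k) : Matrix (Fin 2) (Fin 2) k) p = aeval (fun j => -X j) p := by
  rw [act]
  congr 2
  funext j
  rw [Units.val_neg, Units.val_one, Finset.sum_eq_single j (fun i _ hi => by simp [hi]) (by simp)]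
  simp

theorem mem_invariants_zpowers {p : MvPolynomial (Fin 2) k}
    (h : aeval (fun j => -X j) p = p) :
    p ∈ invariants (Subgroup.zpowers (-1 : GL (Fin 2) k)) := by
  intro g hg
  rw [Subgroup.zpowers_eq_closure] at hg
  induction hg using Subgroup.closure_induction with
  | mem g hg => rw [Set.mem_singleton_iff.1 hg, act_neg_one, h]
  | one => rw [Units.val_one, act_one]
  | mul a b _ _ ha hb => rw [Units.val_mul, act_mul, hb, ha]
  | inv a _ ha =>
    conv_lhs => rw [← ha]
    rw [← act_mul, ← Units.val_mul, inv_mul_cancel, Units.val_one, act_one]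

variable [CharZero k]

/-- An invariant has no linear part. -/
theorem constantCoeff_pderiv_eq_zero {p : MvPolynomial (Fin 2) k}
    (hp : p ∈ invariants (Subgroup.zpowers (-1 : GL (Fin 2) k))) (i : Fin 2) :
    constantCoeff (pderiv i p) = 0 := by
  have h1 := hp _ (Subgroup.mem_zpowers _)
  rw [act_neg_one] at h1
  have h2 := congrArg (fun q => constantCoeff (pderiv i q)) h1
  simp only [pderiv_aeval, map_sum, map_mul] at h2
  have h3 : ∀ q : MvPolynomial (Fin 2) k,
      constantCoeff (aeval (fun j => -X j : Fin 2 → MvPolynomial (Fin 2) k) q) =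
        constantCoeff q := fun q => by
    induction q using MvPolynomial.induction_on with
    | C a => simp
    | add a b ha hb => simp only [map_add, ha, hb]
    | mul_X a j ha => simp
  rw [Finset.sum_eq_single i (fun j _ hj => by simp [pderiv_X_of_ne hj]) (by simp)] at h2
  simp only [map_neg, pderiv_X_self, map_one, mul_neg, mul_one, h3] at h2
  have h4 : 2 * constantCoeff (pderiv i p) = 0 := by linear_combination -h2
  simpa using h4

/-- The second derivatives at the origin are derivations on invariants. -/
theorem secondDeriv_mul {p q : MvPolynomial (Fin 2) k}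
    (hp : p ∈ invariants (Subgroup.zpowers (-1 : GL (Fin 2) k)))
    (hq : q ∈ invariants (Subgroup.zpowers (-1 : GL (Fin 2) k))) (i j : Fin 2) :
    constantCoeff (pderiv i (pderiv j (p * q))) =
      constantCoeff p * constantCoeff (pderiv i (pderiv j q)) +
        constantCoeff q * constantCoeff (pderiv i (pderiv j p)) := by
  simp only [Derivation.leibniz, map_add, smul_eq_mul, map_mul, constantCoeff_pderiv_eq_zero hp,
    constantCoeff_pderiv_eq_zero hq]
  ring

/-- **No two elements generate the invariants of the negation.** -/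
theorem negation_not_polynomial (f₁ f₂ : MvPolynomial (Fin 2) k) :
    invariants (Subgroup.zpowers (-1 : GL (Fin 2) k)) ≠ Algebra.adjoin k {f₁, f₂} := by
  intro hadj
  set S := invariants (Subgroup.zpowers (-1 : GL (Fin 2) k))
  set D : Fin 3 → MvPolynomial (Fin 2) k → k := fun r p =>
    constantCoeff (pderiv (![0, 0, 1] r) (pderiv (![0, 1, 1] r) p))
  set L := Matrix.mulVecLin (Matrix.of fun (s : Fin 2) (r : Fin 3) => D r (![f₁, f₂] s))
  have hker : LinearMap.ker L ≠ ⊥ := LinearMap.ker_ne_bot_of_finrank_lt (by simp)
  obtain ⟨c, hc, hc0⟩ := Submodule.exists_mem_ne_zero_of_ne_bot hker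
  have hL : ∀ p ∈ S, ∑ r, c r * D r p = 0 := by
    intro p hp
    have hp' : p ∈ Algebra.adjoin k {f₁, f₂} := hadj ▸ hp
    clear hp
    induction hp' using Algebra.adjoin_induction with
    | mem w hw =>
      rw [LinearMap.mem_ker, funext_iff] at hc
      rcases hw with rfl | rfl
      · simpa [L, Matrix.mulVec, dotProduct, mul_comm] using hc 0
      · simpa [L, Matrix.mulVec, dotProduct, mul_comm] using hc 1
    | algebraMap r => simp [D]
    | add a b _ _ ha hb =>
      simp only [D, map_add, mul_add, Finset.sum_add_distrib] at ha hb ⊢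
      rw [ha, hb, add_zero]
    | mul a b ha' hb' ha hb =>
      rw [← hadj] at ha' hb'
      simp only [D, secondDeriv_mul ha' hb', mul_add, Finset.sum_add_distrib, mul_left_comm (c _),
        ← Finset.mul_sum] at ha hb ⊢
      rw [ha, hb, mul_zero, mul_zero, add_zero]
  have hmem : ∀ i j : Fin 2, X i * X j ∈ S := fun i j => mem_invariants_zpowers (by simp)
  refine hc0 (funext fun r => ?_)
  have h00 := hL _ (hmem 0 0)
  have h01 := hL _ (hmem 0 1)
  have h11 := hL _ (hmem 1 1)
  simp [D, Fin.sum_univ_three, Derivation.leibniz, pderiv_X_of_ne] at h00 h01 h11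
  fin_cases r
  · simpa using h00
  · simpa using h01
  · simpa using h11

theorem finite_zpowers_neg_one (k : Type*) [Field k] :
    Finite (Subgroup.zpowers (-1 : GL (Fin 2) k)) :=
  IsOfFinOrder.finite_zpowers (isOfFinOrder_iff_pow_eq_one.2 ⟨2, two_pos, neg_one_sq⟩)

end Fermat.Agent.ReflectionGroups
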